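import Fermat.Agent.S59.LOQ.H213.Closed2
import Fermat.Agent.Ribet.H732.FinDown
import Fermat.Agent.S59.H672.NeatSplitUp
import Fermat.Agent.S59.UnitQR.H464.QRGen

/-!
# Row S59, cell (B1) = LO-Q: CLOSED  (sub-architect helper213)

    mazurW35 : Fermat.Agent.S59.Arch.LOW.MazurW35Statement

Mazur's principle in `W`-form at `p ∈ {3, 5}`: `Closed2.mazurW35_of_finDown_q4` with its two
leaves plugged:

* FIN-DOWN = `H732.FinDown.finDown_of_kummerPull732` (helper732, function-level core) applied to
  `π = H672.NeatPull.neatPullR` with KUM-PULL `H672.NeatPull.exists_kummerGen_neatPullR`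
  (helper672);
* Q4-NEAT-3 = `H464.q4For_three_neat` (helper464: UNIT-QR + TAME with an abstract unit, helper698
  + UNIT-EIS, helper37 + EIS-q glue).
-/

set_option autoImplicit false
set_option linter.style.haveILetI false
set_option synthInstance.maxHeartbeats 400000
set_option maxHeartbeats 1000000

namespace Fermat.Agent.S59.LOQ.H213

open Fermat.Agent.S59.H672.NeatPull (neatPullR)

/-- **FIN-DOWN**, unconditional. -/
theorem finDown_h213 : FinDownStatement := by
  intro p q r M' _ _ _ _ _ _ hp hq hqp hr hrq hqM hrM hcop A hA x hpx hx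
  refine Fermat.Agent.Ribet.H732.FinDown.finDown_of_kummerPull732 hq hr (Ne.symm hrq) hqM hrM
    hcop hA (fun y => neatPullR q r M' y) ?_ x hpx hx
  intro y f hK
  obtain ⟨f', hf', hK'⟩ := Fermat.Agent.S59.H672.NeatPull.exists_kummerGen_neatPullR p q r M' hK
  exact ⟨f', hK', Or.inl hf'⟩

/-- **Q4-NEAT-3**, unconditional. -/
theorem q4NeatThree_h213 : Q4NeatThreeStatement :=
  fun q M' _ _ _ hq hq3 hqM haux hn A hA =>
    Fermat.Agent.S59.UnitQR.H464.q4For_three_neat q M' hq hq3 hqM haux.2 hn A hA

/-- **Cell (B1) = LO-Q: Mazur's principle in `W`-form at `p ∈ {3, 5}`**, unconditional. -/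
theorem mazurW35 : Fermat.Agent.S59.Arch.LOW.MazurW35Statement :=
  mazurW35_of_finDown_q4 finDown_h213 q4NeatThree_h213

end Fermat.Agent.S59.LOQ.H213
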