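import Fermat.Agent.S59.LOQ.H213.Spec

/-!
# Row S59, sub-row LO-Q: the CELLS of `TargetsW35Statement` (sub-architect helper213)

`TargetsW35Statement` (the only open leaf of LO-Q, `Spec.lean`) split by cases.  Every cell is a
restriction of `TargetsW35Statement` (so every cell is TRUE), stated with the pointwise Prop
`TargetsAt p q M'`.  Glue `targetsW35_of_cells` proved here.

| cell | case | state of main |
|---|---|---|
| `T5GoodStatement`  | `p = 5`, `7 ≤ q` or `q = 3 ∧ 2 ∣ M'` | `H158.WallQ.wallQTargetsGood` (adapter) |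
| `T5TwoStatement`   | `p = 5`, `q = 2`, `3 ∣ M'`          | generic lemmas take `HasAux M' 2`   |
| `T5Desc3Statement` | `p = 5`, `q = 3`, `2 ∤ M'`          | Q3 done (`H343.q3All`); Q2, Q4 open |
| `T5Desc2Statement` | `p = 5`, `q = 2`, `3 ∤ M'`          | open                                |
| `T3NeatStatement`  | `p = 3`, `q ≠ 3`, `HasAux`, neat    | CORE-OUT needs a unit of exponent prime to 3 |
| `T3RestStatement`  | `p = 3`, the other levels           | open (descent)                      |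
-/

set_option autoImplicit false

namespace Fermat.Agent.S59.LOQ.H213

open ModularCurve
open Fermat.Agent.Ribet Fermat.Agent.Ribet.Spec Fermat.Agent.Ribet.H158.WallQ

/-- The three targets of the wall at `q` at ONE level `(p, q, M')`, every place over `q`. -/
def TargetsAt (p q M' : ℕ) [NeZero M'] [NeZero q] [NeZero (q * M')] : Prop :=
  ∀ A : ValuationSubring (AlgebraicClosure ℚ), A.LiesOverPrime q →
    ∃ 𝓕 𝒮 : AddSubgroup (JZero (q * M')),
      Q2For p q M' A 𝒮 ∧ Q3For p q M' 𝓕 𝒮 ∧ Q4For p q M' A 𝓕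

/-- `p = 3`: the level `q M'` is NEAT at `q` (no node of thickness divisible by `3`): `j = 0` is
ordinary in characteristic `q`, or `M'` has a prime `r ≡ 2 mod 3`, `r ≠ q`. -/
def Neat3 (q M' : ℕ) : Prop :=
  q % 3 = 1 ∨ ∃ r : ℕ, r.Prime ∧ r % 3 = 2 ∧ r ≠ q ∧ r ∣ M'

/-- **T5-GOOD**: `p = 5`, good levels of main. -/
def T5GoodStatement : Prop :=
  ∀ (q M' : ℕ) [NeZero M'] [NeZero q] [NeZero (q * M')], q.Prime → q ≠ 5 → ¬ q ∣ M' →
    (7 ≤ q ∨ (q = 3 ∧ 2 ∣ M')) → TargetsAt 5 q M'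

/-- **T5-TWO**: `p = 5`, `q = 2`, `3 ∣ M'`. -/
def T5TwoStatement : Prop :=
  ∀ (M' : ℕ) [NeZero M'] [NeZero (2 * M')], ¬ 2 ∣ M' → 3 ∣ M' → TargetsAt 5 2 M'

/-- **T5-DESC3**: `p = 5`, `q = 3`, `M'` odd. -/
def T5Desc3Statement : Prop :=
  ∀ (M' : ℕ) [NeZero M'] [NeZero (3 * M')], ¬ 3 ∣ M' → ¬ 2 ∣ M' → TargetsAt 5 3 M'

/-- **T5-DESC2**: `p = 5`, `q = 2`, `3 ∤ M'`. -/
def T5Desc2Statement : Prop :=
  ∀ (M' : ℕ) [NeZero M'] [NeZero (2 * M')], ¬ 2 ∣ M' → ¬ 3 ∣ M' → TargetsAt 5 2 M'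

/-- **T3-NEAT**: `p = 3`, `q ≠ 3`, at the levels with the auxiliary prime for `q`
(`q = 2 → 3 ∣ M'`) which are neat at `q`. -/
def T3NeatStatement : Prop :=
  ∀ (q M' : ℕ) [NeZero M'] [NeZero q] [NeZero (q * M')], q.Prime → q ≠ 3 → ¬ q ∣ M' →
    (q = 2 → 3 ∣ M') → Neat3 q M' → TargetsAt 3 q M'

/-- **T3-REST**: `p = 3`, the remaining levels (`q = 2` with `3 ∤ M'`, or not neat at `q`). -/
def T3RestStatement : Prop :=
  ∀ (q M' : ℕ) [NeZero M'] [NeZero q] [NeZero (q * M')], q.Prime → q ≠ 3 → ¬ q ∣ M' →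
    ¬ ((q = 2 → 3 ∣ M') ∧ Neat3 q M') → TargetsAt 3 q M'

/-- A prime `q ∉ {2, 3, 5}` is `≥ 7`. -/
theorem seven_le_of_prime {q : ℕ} (hq : q.Prime) (h2 : q ≠ 2) (h3 : q ≠ 3) (h5 : q ≠ 5) :
    7 ≤ q := by
  by_contra h
  have hq7 : q < 7 := by omega
  have h2q := hq.two_le
  interval_cases q
  · exact h2 rfl
  · exact h3 rfl
  · exact absurd hq (by decide)
  · exact h5 rfl
  · exact absurd hq (by decide)

/-- **LO-Q: the leaf from its cells.** -/
theorem targetsW35_of_cells (h5g : T5GoodStatement) (h5t : T5TwoStatement)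
    (h53 : T5Desc3Statement) (h52 : T5Desc2Statement) (h3n : T3NeatStatement)
    (h3r : T3RestStatement) : TargetsW35Statement := by
  intro p q M' _ _ _ hp hp35 hq hqp hqM A hA
  rcases hp35 with rfl | rfl
  · by_cases hn : (q = 2 → 3 ∣ M') ∧ Neat3 q M'
    · exact h3n q M' hq hqp hqM hn.1 hn.2 A hA
    · exact h3r q M' hq hqp hqM hn A hA
  · by_cases h2 : q = 2
    · subst h2
      by_cases h3M : 3 ∣ M'
      · exact h5t M' hqM h3M A hA
      · exact h52 M' hqM h3M A hA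
    · by_cases h3 : q = 3
      · subst h3
        by_cases h2M : 2 ∣ M'
        · exact h5g 3 M' hq hqp hqM (Or.inr ⟨rfl, h2M⟩) A hA
        · exact h53 M' hqM h2M A hA
      · exact h5g q M' hq hqp hqM (Or.inl (seven_le_of_prime hq h2 h3 hqp)) A hA

/-- **LO-Q from its cells and the row inputs.** -/
theorem mazurW35_of_cells (hE : EmbedWStatement)
    (hNE : Fermat.Agent.Ribet.H944.Wall.NonEisWStatement)
    (hR3 : EigenformOfOccursAwayStatement) (hR3' : AlmostAllToWitnessWStatement)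
    (hPl : PlacesStatement) (hDet : DetFrobWStatement) (hDim : TorsionRankWStatement)
    (h5g : T5GoodStatement) (h5t : T5TwoStatement) (h53 : T5Desc3Statement)
    (h52 : T5Desc2Statement) (h3n : T3NeatStatement) (h3r : T3RestStatement) :
    Fermat.Agent.S59.Arch.LOW.MazurW35Statement :=
  mazurW35_of_targets hE hNE hR3 hR3' hPl hDet hDim
    (targetsW35_of_cells h5g h5t h53 h52 h3n h3r)

end Fermat.Agent.S59.LOQ.H213
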