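import Fermat.Agent.S59.LOQ.H213.Cells
import Fermat.Agent.Ribet.H818.FrobAL
import Fermat.Agent.Ribet.H523.Q3Final
import Fermat.Agent.Ribet.H937.GRSurj
import Fermat.Agent.Ribet.H912.TameCore
import Fermat.Agent.Ribet.H644.CuspPurityQGood
import Fermat.Agent.Ribet.H699.HeckeNodeGenQ
import Fermat.Agent.Ribet.H398.HeckeFun
import Fermat.Agent.Ribet.H67.UnitEis
import Fermat.Agent.Ribet.H997.RedField

/-!
# Row S59, sub-row LO-Q: the targets of the wall at `q` at ALL GOOD LEVELS, any `p` prime to `12`,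
`q = 2` INCLUDED  (sub-architect helper213)

The wall at `q` of row 37 (`H158.WallQ.wallQTargetsGood`) is frozen with `5 ≤ p`, `q ≠ 2`.  Its
leaves never use `q ≠ 2`, and use `5 ≤ p` only through `Nat.Coprime 12 p` (CORE-OUT-q).  Here the
chain is re-instantiated pointwise with the hypotheses it really needs:

* `q2For_of_hasAux`   : (Q2) from `H818.frob_eq_of_mem_splitPartQ`  (`HasAux M' q`, ANY `p ≠ q`);
* `redEigenQ_h213`    : RED-CLASS (proof of `H523.Q3.redEigenQ`, ANY `p`, ANY `q`, ANY level);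
* `eigenLiftStrong_of_rim` : EIGEN-LIFT from the reduction inputs and GR-SURJ at `(A, M')` (proof of
  `H523.Q3.eigenLiftGood_strong`, ANY `p ≠ q`);
* `q3For_of_rim`      : (Q3) from the reduction inputs and GR-SURJ at `(A, M')`, ANY `p ≠ q`;
* `q4For_of_slope`    : (Q4) from the tame node relation `SlopePropQM p q M' A x` (`HasAux`, ANY `p`);
* `q4For_of_hasAux`   : (Q4) for `p` prime to `12` (`H912.tameCore`);
* **`targetsAt_of_good`** : `TargetsAt p q M'` for `p` prime to `12`, `q ≠ p`, `GoodLevel M' q`;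
* `targetsAt_of_slope`: `TargetsAt p q M'` for ANY prime `p ≠ q` at a good level, from the tame node
  relation alone (the form wanted at `p = 3`);
* **`t5Good : T5GoodStatement`**, **`t5Two : T5TwoStatement`** (cells of `Cells.lean`).
-/

set_option autoImplicit false
set_option linter.style.haveILetI false
set_option linter.unusedSectionVars false
set_option linter.unusedVariables false
set_option synthInstance.maxHeartbeats 400000
set_option maxHeartbeats 1000000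

noncomputable section

namespace Fermat.Agent.S59.LOQ.H213

open AlgebraicCurve ModularCurve HahnSeries
open Fermat.Agent.S24 Fermat.Agent.A2.H708 Fermat.Agent.A2.H528
open Fermat.Agent.Ribet.Spec Fermat.Agent.Ribet.H944.Wall Fermat.Agent.Ribet.H884
open Fermat.Agent.Ribet.H158.WallQ
open Fermat.Agent.Ribet.H944.I2
open Fermat.Agent.S37.H400
open Fermat.Agent.Ribet.H523.Q3
open Fermat.Agent.Ribet.H801

/-- A good level has the auxiliary prime. -/
theorem hasAux_of_goodLevel {q M' : ℕ} (h : Fermat.Agent.S37.Core.GoodLevel M' q) :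
    Fermat.Agent.S35.G.HasAux M' q := by
  refine ⟨fun h3 => ?_, fun h2 => ?_⟩
  · rcases h with h5 | ⟨-, h⟩ | ⟨h2, -⟩
    · omega
    · exact h
    · omega
  · rcases h with h5 | ⟨h3, -⟩ | ⟨-, h⟩
    · omega
    · omega
    · exact h

/-! ## (Q2) -/

/-- **(Q2) FROB-AL** at a level with the auxiliary prime, any prime `p ≠ q`, `q = 2` allowed. -/
theorem q2For_of_hasAux (p q M' : ℕ) [NeZero M'] [NeZero q] [NeZero (q * M')]
    (hp : p.Prime) (hq : q.Prime) (hqp : q ≠ p) (hqM : ¬ q ∣ M')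
    (haux : Fermat.Agent.S35.G.HasAux M' q)
    (A : ValuationSubring Kbar) (hA : A.LiesOverPrime q) :
    Q2For p q M' A (splitPartQ p q M' A) := by
  have hqm : ¬ q ∣ p := fun hd => hqp ((Nat.prime_dvd_prime_iff_eq hq hp).1 hd)
  refine ⟨-((wL q M' hq hqM : JZero (q * M') ≃+ JZero (q * M')) :
      JZero (q * M') →+ JZero (q * M')), ?_, ?_, ?_⟩
  · intro σ x
    show -(wL q M' hq hqM (σ • x)) = σ • (-(wL q M' hq hqM x))
    rw [wL_smul, smul_neg]
  · intro x _ _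
    show -(wL q M' hq hqM (-(wL q M' hq hqM x))) = x
    rw [map_neg, neg_neg, wL_wL]
  · intro φ hφ x hx _
    exact Fermat.Agent.Ribet.H818.frob_eq_of_mem_splitPartQ p hq hqM haux hp.pos hqm A hA φ hφ
      x hx

/-! ## (Q3) -/

/-- **RED-CLASS**, any `p`, any `q`, any level (the proof of `H523.Q3.redEigenQ`). -/
theorem redEigenQ_h213 (p q M' : ℕ) [NeZero M'] [NeZero q] [NeZero (q * M')] (hp : p.Prime)
    (hq : q.Prime) (hqM : ¬ q ∣ M')
    (A : ValuationSubring Kbar) (hA : A.LiesOverPrime q)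
    (S : Finset ℕ) (a : ℕ → ℤ) (x : JZero (q * M')) (hx : x ∈ finPartQ p q M' A)
    (hxS : x ∉ splitPartQ p q M' A) (heig : EigenAt (q * M') S a x) :
    ∃ (S' : Finset ℕ) (h : modularFunctionFieldFullC (kA A) M'),
      S ⊆ S' ∧ IsRedEigen p M' S' a h := by
  obtain ⟨f, hfK, r₁, r₂, hr1, hr2, hP1, hP2⟩ := finClosedQ p q M' A hx
  have hns : ¬ (PPowSeries p M' r₁ ∧ PPowSeries p M' r₂) := by
    rintro ⟨h1, h2⟩
    exact hxS (AddSubgroup.subset_closure ⟨f, hfK, r₁, r₂, hr1, hr2, h1, h2⟩)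
  have hKf : ∀ (ℓ : ℕ) [NeZero ℓ], ℓ.Prime → ℓ ∉ S → ¬ ℓ ∣ q * M' →
      KummerEigen (q * M') p ℓ (a ℓ) f :=
    fun ℓ _ hℓ hℓS hℓN => kumEig (q * M') p hp.ne_zero S a x f hfK heig ℓ hℓ hℓS hℓN
  -- the main step, for a pair `(F, r)`
  have key : ∀ (F : FF (q * M')) (r : LaurentSeries (kA A)), IsRedInf (q * M') A F r →
      PDivSeries p M' r → ¬ PPowSeries p M' r →
      (∀ (ℓ : ℕ) [NeZero ℓ], ℓ.Prime → ℓ ∉ S → ¬ ℓ ∣ q * M' →
        KummerEigen (q * M') p ℓ (a ℓ) F) →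
      ∃ (S' : Finset ℕ) (h : modularFunctionFieldFullC (kA A) M'),
        S ⊆ S' ∧ IsRedEigen p M' S' a h := by
    intro F r hFr hPr hsr hKF
    obtain ⟨h, hh, h0, hdiv⟩ := hPr
    refine ⟨S ∪ (q * M').primeFactors, h, Finset.subset_union_left, h0, hdiv,
      by rw [hh]; exact hsr, ?_⟩
    intro ℓ _ hℓ hℓS'
    have hℓS : ℓ ∉ S := fun e => hℓS' (Finset.mem_union_left _ e)
    have hℓN : ¬ ℓ ∣ q * M' := fun hd =>
      hℓS' (Finset.mem_union_right _ (Nat.mem_primeFactors.mpr ⟨hℓ, hd, NeZero.ne _⟩))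
    obtain ⟨c, G, hc, hG, hN⟩ := hKF ℓ hℓ hℓS hℓN
    have h1 : IsRedInf (q * M') A (hNorm (q * M') ℓ F) (Fermat.Agent.S37.H697.knorm ℓ r) :=
      Fermat.Agent.Ribet.H376.heckeRed (q * M') ℓ hℓ hℓN A F r hFr
    obtain ⟨rG, hrG⟩ := (Fermat.Agent.Ribet.H997.redExists q (q * M') hq A hA G hG).1
    have h2 : IsRedInf (q * M') A (hNorm (q * M') ℓ F) (1 * r ^ (a ℓ) * rG ^ p) := by
      rw [hN]
      exact isRedInf_mul _ A (isRedInf_mul _ A (isRedInf_const _ A hc)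
        (isRedInf_zpow _ A hFr (a ℓ))) (isRedInf_pow _ A hrG p)
    obtain ⟨-, cb, hcb, hEq⟩ :=
      Fermat.Agent.Ribet.H997.redUnique q (q * M') hq A hA _ _ _ h2 h1
    have hrG0 : rG ≠ 0 := (isRedInf_ne_zero _ A hrG).2
    obtain ⟨Gk, hGk⟩ :=
      Fermat.Agent.Ribet.H997.redField q M' hq hqM A hA G rG (Or.inl hrG)
    refine ⟨cb, Gk, hcb, fun e => hrG0 (by rw [← hGk, e]; rfl), ?_⟩
    rw [← Fermat.Agent.Ribet.H376.knorm_eq_kronNorm, hh, hGk, hEq, one_mul, mul_assoc]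
  by_cases hs1 : PPowSeries p M' r₁
  · have hs2 : ¬ PPowSeries p M' r₂ := fun h2 => hns ⟨hs1, h2⟩
    exact key (wF (q * M') f) r₂ hr2 hP2 hs2
      (fun ℓ _ hℓ hℓS hℓN =>
        (hKf ℓ hℓ hℓS hℓN).fricke Fermat.Agent.Ribet.H376.frickeHecke hℓ hℓN)
  · exact key f r₁ hr1 hP1 hs1 hKf

/-- **EIGEN-LIFT, strong form**, from the reduction inputs and GR-SURJ at `(A, M')` (the proof of
`H523.Q3.eigenLiftGood_strong`). -/
theorem eigenLiftStrong_of_rim
    (p q M' : ℕ) [NeZero M'] (hp : p.Prime) (hq : q.Prime) (hqp : q ≠ p)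
    (hqM : ¬ q ∣ M')
    (A : ValuationSubring Kbar) (hA : A.LiesOverPrime q)
    (hRI : ReductionInputsModL A M')
    (hSurj : ∀ y : JZeroC (kA A) M', p • y = 0 →
      ∃ z : JZero M', p • z = 0 ∧ reductionModL A M' z = y)
    (S : Finset ℕ) (a : ℕ → ℤ) (h : modularFunctionFieldFullC (kA A) M')
    (hh : IsRedEigen p M' S a h) :
    ∃ (z : JZero M') (f : FF M') (r : LaurentSeries (kA A)) (c : kA A)
      (u : modularFunctionFieldFullC (kA A) M'),
      z ≠ 0 ∧ p • z = 0 ∧ IsKummerGen M' p f z ∧ IsRedInf M' A f r ∧ c ≠ 0 ∧ u ≠ 0 ∧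
      r = HahnSeries.C c * (h : LaurentSeries (kA A)) * (u : LaurentSeries (kA A)) ^ p ∧
      ∀ ℓ : Nat.Primes, (ℓ : ℕ) ∉ S ∪ (q * M' * p).primeFactors →
        heckeOperatorBar M' ℓ z = a ℓ • z := by
  classical
  obtain ⟨hac, hch⟩ := Fermat.Agent.Ribet.H939.resField q hq A hA
  haveI := hac
  haveI := hch
  haveI : Fact q.Prime := ⟨hq⟩
  have hchar : ∀ p' : ℕ, p'.Prime → p' ∣ M' → (p' : kA A) ≠ 0 := by
    intro p' hp' hd h0
    have h1 : q ∣ p' := (CharP.cast_eq_zero_iff (kA A) q p').mp h0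
    have h2 : q = p' := (Nat.prime_dvd_prime_iff_eq hq hp').mp h1
    exact hqM (h2 ▸ hd)
  haveI hpd : HasPrincipalDivisors (kA A) (modularFunctionFieldFullC (kA A) M') :=
    Fermat.Agent.S37.H868.hpd_fullC (kA A) M' hchar
  have hconst := Fermat.Agent.S18.H144.constOfOrdZero_fullC (kA A) M' hchar
  obtain ⟨h0, hdiv, hnpp, heig⟩ := hh
  obtain ⟨Eh, hEh⟩ := exists_degZero_of_dvd_ord (K := kA A) hp.ne_zero h0 hdiv
  -- the class `y` of `h`
  have hpy : p • (Pic0.mk Eh : JZeroC (kA A) M') = 0 := by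
    have e : p • (Pic0.mk Eh : JZeroC (kA A) M') = Pic0.mk (p • Eh) := rfl
    rw [e]
    show (QuotientAddGroup.mk (p • Eh) : Pic0 (kA A) (modularFunctionFieldFullC (kA A) M')) = 0
    refine (QuotientAddGroup.eq_zero_iff (p • Eh)).mpr ?_
    rw [AddSubgroup.mem_addSubgroupOf]
    refine ⟨h, h0, fun Q => ?_⟩
    rw [hEh Q]
    simp
  have hy0 : (Pic0.mk Eh : JZeroC (kA A) M') ≠ 0 := by
    intro hy
    obtain ⟨c, u, hc, hu, he⟩ := exists_const_mul_pow_of_mk_eq_zero hconst h0 hEh hy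
    apply hnpp
    refine ⟨c, u, hc, hu, ?_⟩
    rw [he]
    show ((algebraMap (kA A) (modularFunctionFieldFullC (kA A) M') c : _) : LaurentSeries (kA A))
      * ((u : LaurentSeries (kA A))) ^ p = _
    rw [show ((algebraMap (kA A) (modularFunctionFieldFullC (kA A) M') c : _) :
      LaurentSeries (kA A)) = HahnSeries.C c from Fermat.Agent.S18.H602.algebraMap_eq_C c]
  obtain ⟨z, hpz, hzy⟩ := hSurj _ hpy
  have hz0 : z ≠ 0 := by
    rintro rfl
    rw [map_zero] at hzy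
    exact hy0 hzy.symm
  obtain ⟨f, hfK⟩ := exists_isKummerGen (N := M') p z hpz
  obtain ⟨r, hr⟩ := (Fermat.Agent.Ribet.H997.redExists q M' hq A hA f hfK.1).1
  have hr0 : r ≠ 0 := (isRedInf_ne_zero M' A hr).2
  obtain ⟨g, E, hgr, hE, hord⟩ := Fermat.Agent.Ribet.H579.kumRed q M' p hq hqM A hA hRI z f r hfK hr
  have hg0 : g ≠ 0 := fun e => hr0 (by rw [← hgr, e]; rfl)
  obtain ⟨c, u, hc, hu, hgeq⟩ :=
    exists_const_mul_pow hconst hg0 h0 hord hEh (hE.trans hzy)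
  have hcst : ∀ d : kA A, ((algebraMap (kA A) (modularFunctionFieldFullC (kA A) M') d : _) :
      LaurentSeries (kA A)) = HahnSeries.C d := fun d =>
    Fermat.Agent.S18.H602.algebraMap_eq_C d
  have hrser : r = HahnSeries.C c * (h : LaurentSeries (kA A)) *
      (u : LaurentSeries (kA A)) ^ p := by
    rw [← hgr, hgeq]
    show ((algebraMap (kA A) (modularFunctionFieldFullC (kA A) M') c : _) :
      LaurentSeries (kA A)) * (h : LaurentSeries (kA A)) * (u : LaurentSeries (kA A)) ^ p = _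
    rw [hcst]
  refine ⟨z, f, r, c, u, hz0, hpz, hfK, hr, hc, hu, hrser, ?_⟩
  -- the eigen-relation, by injectivity of the reduction on `p`-torsion
  intro ℓ hℓS'
  have hℓS : (ℓ : ℕ) ∉ S := fun e => hℓS' (Finset.mem_union_left _ e)
  have hqMp0 : q * M' * p ≠ 0 :=
    Nat.mul_ne_zero (Nat.mul_ne_zero hq.ne_zero (NeZero.ne M')) hp.ne_zero
  have hℓN : ¬ (ℓ : ℕ) ∣ q * M' * p := fun hd =>
    hℓS' (Finset.mem_union_right _ (Nat.mem_primeFactors.mpr ⟨ℓ.2, hd, hqMp0⟩))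
  have hℓM : ¬ (ℓ : ℕ) ∣ M' := fun hd =>
    hℓN (Dvd.dvd.mul_right (Dvd.dvd.mul_left hd q) p)
  have hℓq : (ℓ : ℕ) ≠ q := fun e =>
    hℓN (Dvd.dvd.mul_right (Dvd.dvd.mul_right (e ▸ dvd_refl _) M') p)
  haveI : NeZero (ℓ : ℕ) := ⟨ℓ.2.ne_zero⟩
  obtain ⟨cℓ, G, hcℓ, hG, hKE⟩ := heig ℓ ℓ.2 hℓS
  obtain ⟨v, hv⟩ := Fermat.Agent.Ribet.H708.kronField q M' hq hqM A hA ℓ ℓ.2 hℓM hℓq u
  have hpw : p • (heckeOperatorBar M' ℓ z - a ℓ • z) = 0 := by
    have e1 : p • (heckeOperatorBar M' ℓ z) = 0 := by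
      rw [← map_nsmul, hpz, map_zero]
    have e2 : p • (a ℓ • z) = 0 := by
      rw [smul_comm, hpz, smul_zero]
    rw [nsmul_sub, e1, e2, sub_zero]
  -- a Kummer generator of `w = T_ℓ z - a_ℓ z` and its reduction
  have hK1 : IsKummerGen M' p (Fermat.Agent.S29.H395.heckeNorm M' ℓ f)
      (heckeOperatorBar M' ℓ z) :=
    Fermat.Agent.Ribet.H398.isKummerGen_heckeNorm M' ℓ p f z hfK
  have hKw : IsKummerGen M' p
      (Fermat.Agent.S29.H395.heckeNorm M' ℓ f * (f ^ (a ℓ))⁻¹)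
      (heckeOperatorBar M' ℓ z - a ℓ • z) := by
    rw [sub_eq_add_neg]
    exact isKummerGen_mul M' p hK1 (isKummerGen_inv M' p (isKummerGen_zpow' M' p hfK (a ℓ)))
  have hR1 : IsRedInf M' A (Fermat.Agent.S29.H395.heckeNorm M' ℓ f) (kronNorm ℓ r) :=
    Fermat.Agent.Ribet.H376.isRedInf_heckeNorm' M' ℓ ℓ.2 hℓM A hr
  have hRw : IsRedInf M' A (Fermat.Agent.S29.H395.heckeNorm M' ℓ f * (f ^ (a ℓ))⁻¹)
      (kronNorm ℓ r * (r ^ (a ℓ))⁻¹) :=
    isRedInf_mul M' A hR1 (isRedInf_inv M' A (isRedInf_zpow M' A hr (a ℓ)))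
  obtain ⟨gw, Ew, hgw, hEw, hordw⟩ := Fermat.Agent.Ribet.H579.kumRed q M' p hq hqM A hA hRI _ _ _ hKw hRw
  -- the reduction is a constant times a `p`-th power in `F_k`
  have hh0 : (h : LaurentSeries (kA A)) ≠ 0 := fun e => h0 (Subtype.ext e)
  have hu0 : (u : LaurentSeries (kA A)) ≠ 0 := fun e => hu (Subtype.ext e)
  have hua0 : u ^ (a ℓ) ≠ 0 := zpow_ne_zero _ hu
  have hcalc : gw = algebraMap (kA A) (modularFunctionFieldFullC (kA A) M')
      (c ^ ((ℓ : ℕ) + 1) * cℓ * (c ^ (a ℓ))⁻¹) * (G * v * (u ^ (a ℓ))⁻¹) ^ p := by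
    apply Subtype.ext
    rw [hgw]
    show kronNorm ℓ r * (r ^ (a ℓ))⁻¹ =
      ((algebraMap (kA A) (modularFunctionFieldFullC (kA A) M')
        (c ^ ((ℓ : ℕ) + 1) * cℓ * (c ^ (a ℓ))⁻¹) : _) : LaurentSeries (kA A)) *
      ((G : LaurentSeries (kA A)) * (v : LaurentSeries (kA A)) *
        ((u : LaurentSeries (kA A)) ^ (a ℓ))⁻¹) ^ p
    rw [hcst, hv, hrser, kronNorm_mul, kronNorm_mul, kronNorm_pow,
      Fermat.Agent.Ribet.H376.kronNorm_C, hKE]
    have hCc : (HahnSeries.C c : LaurentSeries (kA A)) ≠ 0 :=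
      (map_ne_zero (HahnSeries.C : kA A →+* LaurentSeries (kA A))).mpr hc
    have e1 : (HahnSeries.C c * (h : LaurentSeries (kA A)) *
        (u : LaurentSeries (kA A)) ^ p) ^ (a ℓ) =
        HahnSeries.C (c ^ (a ℓ)) * (h : LaurentSeries (kA A)) ^ (a ℓ) *
          ((u : LaurentSeries (kA A)) ^ (a ℓ)) ^ p := by
      rw [mul_zpow, mul_zpow, ← map_zpow₀ (HahnSeries.C : kA A →+* LaurentSeries (kA A)),
        ← zpow_natCast ((u : LaurentSeries (kA A))) p, ← zpow_mul,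
        ← zpow_natCast ((u : LaurentSeries (kA A)) ^ (a ℓ)) p, ← zpow_mul, mul_comm (p : ℤ)]
    rw [e1]
    have hha0 : (h : LaurentSeries (kA A)) ^ (a ℓ) ≠ 0 := zpow_ne_zero _ hh0
    have hua0' : (u : LaurentSeries (kA A)) ^ (a ℓ) ≠ 0 := zpow_ne_zero _ hu0
    have hca0 : (HahnSeries.C (c ^ (a ℓ)) : LaurentSeries (kA A)) ≠ 0 :=
      (map_ne_zero (HahnSeries.C : kA A →+* LaurentSeries (kA A))).mpr (zpow_ne_zero (a ℓ) hc)
    have hcl0 : (HahnSeries.C (c ^ ((ℓ : ℕ) + 1)) : LaurentSeries (kA A)) ≠ 0 :=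
      (map_ne_zero (HahnSeries.C : kA A →+* LaurentSeries (kA A))).mpr (pow_ne_zero _ hc)
    have huap0 : ((u : LaurentSeries (kA A)) ^ (a ℓ)) ^ p ≠ 0 := pow_ne_zero _ hua0'
    rw [map_mul, map_mul, map_inv₀, mul_pow, mul_pow, inv_pow]
    generalize (HahnSeries.C (c ^ ((ℓ : ℕ) + 1)) : LaurentSeries (kA A)) = X1 at hcl0 ⊢
    generalize (HahnSeries.C (c ^ (a ℓ)) : LaurentSeries (kA A)) = X2 at hca0 ⊢
    generalize (HahnSeries.C cℓ : LaurentSeries (kA A)) = X3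
    generalize ((u : LaurentSeries (kA A)) ^ (a ℓ)) ^ p = X4 at huap0 ⊢
    generalize (h : LaurentSeries (kA A)) ^ (a ℓ) = X5 at hha0 ⊢
    generalize (G : LaurentSeries (kA A)) ^ p = X6
    generalize (kronNorm (ℓ : ℕ) (u : LaurentSeries (kA A))) ^ p = X7
    field_simp
  have hgw_cst : c ^ ((ℓ : ℕ) + 1) * cℓ * (c ^ (a ℓ))⁻¹ ≠ 0 :=
    mul_ne_zero (mul_ne_zero (pow_ne_zero _ hc) hcℓ) (inv_ne_zero (zpow_ne_zero _ hc))
  have hv0 : v ≠ 0 := by
    intro e
    have h1 : kronNorm ℓ (u : LaurentSeries (kA A)) = 0 := by rw [← hv, e]; rfl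
    exact Fermat.Agent.Ribet.H376.kronNorm_ne_zero_of_field ℓ.2 hu0 h1
  have hzero : (Pic0.mk Ew : JZeroC (kA A) M') = 0 :=
    mk_eq_zero_of_const_mul_pow (K := kA A) hp.ne_zero
      (mul_ne_zero (mul_ne_zero hG hv0) (inv_ne_zero hua0)) hcalc hordw hgw_cst
  have hred0 : reductionModL A M' (heckeOperatorBar M' ℓ z - a ℓ • z) = 0 := by
    rw [← hEw, hzero]
  have hqp' : ¬ q ∣ p := fun hd => hqp ((Nat.prime_dvd_prime_iff_eq hq hp).mp hd)
  have hw := Fermat.Agent.S18.result M' hqM A hA hRI p hqp' _ hpw hred0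
  exact sub_eq_zero.mp hw


/-- **(Q3) RED** from the reduction inputs and GR-SURJ at `(A, M')`. -/
theorem q3For_of_rim (p q M' : ℕ) [NeZero M'] [NeZero q] [NeZero (q * M')] (hp : p.Prime)
    (hq : q.Prime) (hqp : q ≠ p) (hqM : ¬ q ∣ M')
    (A : ValuationSubring Kbar) (hA : A.LiesOverPrime q)
    (hRI : ReductionInputsModL A M')
    (hSurj : ∀ y : JZeroC (kA A) M', p • y = 0 →
      ∃ z : JZero M', p • z = 0 ∧ reductionModL A M' z = y) :
    Q3For p q M' (finPartQ p q M' A) (splitPartQ p q M' A) := by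
  intro S a x hx hxS _ heig
  obtain ⟨S', h, hSS', hh⟩ := redEigenQ_h213 p q M' hp hq hqM A hA S a x hx hxS heig
  obtain ⟨z, f, r, c, u, hz0, hpz, -, -, -, -, -, hz⟩ :=
    eigenLiftStrong_of_rim p q M' hp hq hqp hqM A hA hRI hSurj S' a h hh
  exact ⟨S' ∪ (q * M' * p).primeFactors, hSS'.trans Finset.subset_union_left,
    Or.inl ⟨z, hz0, hpz, hz⟩⟩

/-- **(Q3) RED** at a good level, any prime `p ≠ q`, `q = 2` allowed. -/
theorem q3For_of_good (p q M' : ℕ) [NeZero M'] [NeZero q] [NeZero (q * M')] (hp : p.Prime)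
    (hq : q.Prime) (hqp : q ≠ p) (hqM : ¬ q ∣ M')
    (hgood : Fermat.Agent.S37.Core.GoodLevel M' q)
    (A : ValuationSubring Kbar) (hA : A.LiesOverPrime q) :
    Q3For p q M' (finPartQ p q M' A) (splitPartQ p q M' A) := by
  haveI : Fact q.Prime := ⟨hq⟩
  have hqp' : ¬ q ∣ p := fun hd => hqp ((Nat.prime_dvd_prime_iff_eq hq hp).1 hd)
  exact q3For_of_rim p q M' hp hq hqp hqM A hA
    (Fermat.Agent.S37.Core.rimStatement M' q hq hqM hgood A hA)
    (fun y hy => Fermat.Agent.Ribet.H937.grSurj M' hqM hgood A hA p hqp' y hy)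

/-! ## (Q4) -/

/-- **(Q4) TAME from the tame node relation**: if every new eigenclass fixed by inertia has
proportional slopes (`SlopePropQM`), then (Q4) holds for `finPartQ`.  Any prime `p`. -/
theorem q4For_of_slope (p q M' : ℕ) [NeZero M'] [NeZero q] [NeZero (q * M')] (hp : p.Prime)
    (hq : q.Prime) (hqp : q ≠ p) (hqM : ¬ q ∣ M') (haux : Fermat.Agent.S35.G.HasAux M' q)
    (A : ValuationSubring Kbar) (hA : A.LiesOverPrime q)
    (hSl : ∀ (S : Finset ℕ) (a : ℕ → ℤ) (x : JZero (q * M')), NonEisAway p a →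
      IsNewTorsQ p q M' x → EigenAt (q * M') S a x →
      (∀ σ ∈ A.inertiaSubgroupIn ℚ, σ • x = x) → SlopePropQM p q M' A x) :
    Q4For p q M' A (finPartQ p q M' A) := by
  intro S a hNE x hx hex hfix
  have hE : IsEisModQ p q M' A (q * M' * p).primeFactors x := by
    refine isEisModQ_of_slopePropQM' Fermat.Agent.Ribet.H398.heckeFun
      Fermat.Agent.Ribet.H67.unitEis Fermat.Agent.Ribet.H997.redExists
      Fermat.Agent.Ribet.H997.redUnique Fermat.Agent.Ribet.H997.redField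
      p p q M' hp.ne_zero hq hqM A hA ?_ ?_ x (hSl S a x hNE hx hex hfix)
    · intro ℓ _ hℓ f g hg hf
      have h1 := Fermat.Agent.Ribet.H699.heckeNodeGenQPow p 1 q M' hp Nat.one_pos hq hqp hqM
        A hA ℓ hℓ f g hg
      rw [pow_one] at h1
      exact h1 hf
    · intro g y hg hN
      exact Fermat.Agent.Ribet.H644.cuspPurityAux p q M' hq hqM haux hp.pos A hA g y hg hN
  exact mem_finPartQ_of_eis p q M' hp A S _ a hNE x hx.1 hex hE

/-- **(Q4) TAME** at a level with the auxiliary prime, `p` prime to `12`, `q = 2` allowed. -/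
theorem q4For_of_hasAux (p q M' : ℕ) [NeZero M'] [NeZero q] [NeZero (q * M')] (hp : p.Prime)
    (hcop : Nat.Coprime 12 p) (hq : q.Prime) (hqp : q ≠ p) (hqM : ¬ q ∣ M')
    (haux : Fermat.Agent.S35.G.HasAux M' q)
    (A : ValuationSubring Kbar) (hA : A.LiesOverPrime q) :
    Q4For p q M' A (finPartQ p q M' A) := by
  refine q4For_of_slope p q M' hp hq hqp hqM haux A hA ?_
  intro S a x _ hx _ hfix
  obtain ⟨f, D, G, a', b', hK, hD, hD0, heq, hNG⟩ :=
    Fermat.Agent.Ribet.H912.tameCore q M' p hq hqM haux hp.pos hcop A hA x hx.1 hfix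
  exact ⟨f, D, G, 12, a', b', hK, hD, hD0, by norm_num, hcop, heq, hNG⟩

/-! ## The targets -/

/-- **The three targets at a good level from the tame node relation**, any prime `p ≠ q`
(`p = 3` included), `q = 2` allowed. -/
theorem targetsAt_of_slope (p q M' : ℕ) [NeZero M'] [NeZero q] [NeZero (q * M')]
    (hp : p.Prime) (hq : q.Prime) (hqp : q ≠ p) (hqM : ¬ q ∣ M')
    (hgood : Fermat.Agent.S37.Core.GoodLevel M' q)
    (hSl : ∀ A : ValuationSubring Kbar, A.LiesOverPrime q →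
      ∀ (S : Finset ℕ) (a : ℕ → ℤ) (x : JZero (q * M')), NonEisAway p a →
      IsNewTorsQ p q M' x → EigenAt (q * M') S a x →
      (∀ σ ∈ A.inertiaSubgroupIn ℚ, σ • x = x) → SlopePropQM p q M' A x) :
    TargetsAt p q M' := by
  intro A hA
  have haux := hasAux_of_goodLevel hgood
  exact ⟨finPartQ p q M' A, splitPartQ p q M' A,
    q2For_of_hasAux p q M' hp hq hqp hqM haux A hA,
    q3For_of_good p q M' hp hq hqp hqM hgood A hA,
    q4For_of_slope p q M' hp hq hqp hqM haux A hA (hSl A hA)⟩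

/-- **The three targets at a good level**, `p` prime to `12`, `q = 2` allowed. -/
theorem targetsAt_of_good (p q M' : ℕ) [NeZero M'] [NeZero q] [NeZero (q * M')]
    (hp : p.Prime) (hcop : Nat.Coprime 12 p) (hq : q.Prime) (hqp : q ≠ p) (hqM : ¬ q ∣ M')
    (hgood : Fermat.Agent.S37.Core.GoodLevel M' q) : TargetsAt p q M' := by
  intro A hA
  have haux := hasAux_of_goodLevel hgood
  exact ⟨finPartQ p q M' A, splitPartQ p q M' A,
    q2For_of_hasAux p q M' hp hq hqp hqM haux A hA,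
    q3For_of_good p q M' hp hq hqp hqM hgood A hA,
    q4For_of_hasAux p q M' hp hcop hq hqp hqM haux A hA⟩

/-! ## The cells T5-GOOD and T5-TWO -/

/-- **T5-GOOD**, unconditional. -/
theorem t5Good : T5GoodStatement := by
  intro q M' _ _ _ hq hq5 hqM hgood
  refine targetsAt_of_good 5 q M' (by norm_num) (by norm_num) hq hq5 hqM ?_
  rcases hgood with h7 | ⟨h3, h2⟩
  · exact Or.inl (by omega)
  · exact Or.inr (Or.inl ⟨h3, h2⟩)

/-- **T5-TWO**, unconditional. -/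
theorem t5Two : T5TwoStatement := by
  intro M' _ _ h2M h3M
  exact targetsAt_of_good 5 2 M' (by norm_num) (by norm_num) Nat.prime_two (by norm_num) h2M
    (Or.inr (Or.inr ⟨rfl, h3M⟩))

end Fermat.Agent.S59.LOQ.H213

end
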