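import Fermat.Agent.S59.LOQ.H213.Final
import Fermat.Agent.S59.LOQ.H213.Good
import Fermat.Agent.S59.LOQ.H849.NeatCells
import Fermat.Agent.S59.LO.H646.Unpad
import Fermat.Agent.S59.TW.Aut.H186.AuxPrimeW

/-!
# Row S59, cell (B1) = LO-Q: THE INTEGRATION TOP  (sub-architect helper213)

`LOW.MazurW35Statement` from the FOUR cells which are still open, everything else plugged:

    mazurW35_of_open : T5Desc3Statement → T5Desc2Statement → T3NeatStatement →
      H849.T3Desc2NeatStatement → LOW.MazurW35Statement

Plugged here (all unconditional):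

| input | theorem |
|---|---|
| row inputs (BLR-W, NE-W, R3S, R3'-W, Places, DETF-W, DIM-W) | `Final.lean` |
| T5-GOOD, T5-TWO | `Good.lean` (`t5Good`, `t5Two`) |
| top glue without T3-REST | `H849.mazurW35_of_cells_pad` (helper849) |
| PAD | `H646.resMod_pad646` (helper646) |
| UNPAD | `H646.unpad646` (helper646) |
| CHEB-3 | `H186.exists_aux3_W_h186` (helper186) |
-/

set_option autoImplicit false
set_option linter.style.haveILetI false

namespace Fermat.Agent.S59.LOQ.H213

open Fermat.Agent.S59.LOQ.H849

/-- **PAD** in the shape of `H849.PadStatement`. -/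
theorem pad_h213 : PadStatement := by
  intro W _ _ _ M r hM hr _ _ _ hres
  exact Fermat.Agent.S59.LO.H646.resMod_pad646 W 3
    (Nat.mul_ne_zero hr.ne_zero hM.ne_zero) (dvd_mul_left M r) hres

/-- **UNPAD** in the shape of `H849.UnpadStatement`. -/
theorem unpad_h213 : UnpadStatement := by
  intro W hΔ _ hirr M r hM hr hr3 hrM hgood _ _ hlr hres
  haveI : Fact (Nat.Prime 3) := ⟨Nat.prime_three⟩
  have hM0 : 0 < M := by
    rcases Nat.eq_zero_or_pos M with h | h
    · subst h
      simp at hM
    · exact h
  exact Fermat.Agent.S59.LO.H646.unpad646 3 (by norm_num) W hΔ hirr M r hM0 hr hr3 hrM hgood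
    hlr hres

/-- **CHEB-3** in the shape of `H849.Cheb3Statement`. -/
theorem cheb3_h213 : Cheb3Statement :=
  fun W hΔ hW hirr S => Fermat.Agent.S59.TW.Aut.H186.exists_aux3_W_h186 W hΔ hW hirr S

/-- **LO-Q from its four open cells.** -/
theorem mazurW35_of_open (h53 : T5Desc3Statement) (h52 : T5Desc2Statement)
    (h3n : T3NeatStatement) (h3d : T3Desc2NeatStatement) :
    Fermat.Agent.S59.Arch.LOW.MazurW35Statement :=
  mazurW35_of_cells_pad Fermat.Agent.Ribet.H823.embedW Fermat.Agent.Ribet.H883.nonEisW
    Fermat.Agent.Ribet.H404.eigenformOfOccursAway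
    Fermat.Agent.Ribet.H943.Final.almostAllToWitnessW
    Fermat.Agent.Ribet.H584.places detFrobW torsionRankW t5Good t5Two h53 h52 h3n h3d
    pad_h213 unpad_h213 cheb3_h213

end Fermat.Agent.S59.LOQ.H213
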