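import Fermat.Agent.S59.LOQ.H213.Good
import Fermat.Agent.S59.LOQ.H849.NeatCells
import Fermat.Agent.S59.H672.NeatPullInst
import Fermat.Agent.Ribet.H818.FrobALAll
import Fermat.Agent.Ribet.H924.Q3ForAll

/-!
# Row S59, cell (B1) = LO-Q: the DESCENT cells from FIN-DOWN alone  (sub-architect helper213)

With (Q2) at ALL levels (`H818.q2All`, helper818) and (Q3) at ALL levels (`H924.q3For_all`,
helper924) for the intrinsic subgroups `finPartQ`, `splitPartQ`, the only target which has to be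
descended from the auxiliary level `(q, r M')` is (Q4) TAME, and its descent
(`H158.Neat.q4For_of_neatPull`, helper158, along `H672.neatPullR`, helper672) needs FIN-DOWN only
(SPLIT-UP is NOT needed any more).

## Leaves frozen here
* `FinDownStatement` : `p x = 0 → π x ∈ finPartQ p q (r M') A → x ∈ finPartQ p q M' A` for
  `π = H672.NeatPull.neatPullR q r M'`, `p ∤ r + 1`;
* `Q4NeatThreeStatement` : (Q4) TAME for `finPartQ` at `p = 3` at the levels with the auxiliary
  prime (`HasAux M' q`) which are neat at `q` (`Neat3 q M'`).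

## Proved here
* `q4For_down` : (Q4) descends from `(q, r M')` to `(q, M')`;
* `targetsAt_of_q4` : `TargetsAt p q M'` from (Q4) for `finPartQ` (any primes `p ≠ q`, ANY level);
* `t5Desc3_of_finDown`, `t5Desc2_of_finDown` : the cells T5-DESC3 (`r = 2`), T5-DESC2 (`r = 3`);
* `t3Neat_of_q4`, `t3Desc2Neat_of_finDown` : the cells T3-NEAT, T3-DESC2-NEAT (`r = 3`, degree `4`);
* **`mazurW35_of_finDown_q4 : FinDownStatement → Q4NeatThreeStatement → LOW.MazurW35Statement`**
  is in `Closed2.lean`.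
-/

set_option autoImplicit false
set_option linter.style.haveILetI false
set_option linter.unusedSectionVars false
set_option linter.unusedVariables false
set_option synthInstance.maxHeartbeats 400000
set_option maxHeartbeats 1000000

noncomputable section

namespace Fermat.Agent.S59.LOQ.H213

open ModularCurve
open Fermat.Agent.S24
open Fermat.Agent.Ribet.Spec Fermat.Agent.Ribet.H944.Wall Fermat.Agent.Ribet.H884
open Fermat.Agent.Ribet.H158.WallQ
open Fermat.Agent.S59.H672.NeatPull (neatPullR isNeatPull)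

/-- **The leaf FIN-DOWN** (finiteness descends along the pull-back of degree `r + 1` prime to
`p`), for `π = H672.NeatPull.neatPullR q r M'`. -/
def FinDownStatement : Prop :=
  ∀ (p q r M' : ℕ) [NeZero M'] [NeZero q] [NeZero r] [NeZero (q * M')] [NeZero (r * M')]
    [NeZero (q * (r * M'))], p.Prime → q.Prime → q ≠ p → r.Prime → r ≠ q → ¬ q ∣ M' →
    ¬ r ∣ M' → Nat.Coprime (r + 1) p →
    ∀ A : ValuationSubring Kbar, A.LiesOverPrime q →
    ∀ x : JZero (q * M'), p • x = 0 →
      neatPullR q r M' x ∈ finPartQ p q (r * M') A → x ∈ finPartQ p q M' A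

/-- **The leaf Q4-NEAT-3**: (Q4) TAME for `finPartQ` at `p = 3`, at the levels with the auxiliary
prime which are neat at `q`. -/
def Q4NeatThreeStatement : Prop :=
  ∀ (q M' : ℕ) [NeZero M'] [NeZero q] [NeZero (q * M')], q.Prime → q ≠ 3 → ¬ q ∣ M' →
    Fermat.Agent.S35.G.HasAux M' q → Neat3 q M' →
    ∀ A : ValuationSubring Kbar, A.LiesOverPrime q →
      Q4For 3 q M' A (finPartQ 3 q M' A)

/-- `q ∤ r M'` for distinct primes `q`, `r` with `q ∤ M'`. -/
theorem not_dvd_mul_of_ne {q r M' : ℕ} (hq : q.Prime) (hr : r.Prime) (hrq : r ≠ q)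
    (hqM : ¬ q ∣ M') : ¬ q ∣ r * M' := by
  intro h
  rcases (Nat.Prime.dvd_mul hq).mp h with h | h
  · exact hrq ((Nat.prime_dvd_prime_iff_eq hq hr).mp h).symm
  · exact hqM h

/-- **(Q4) TAME descends** from the auxiliary level `(q, r M')` to `(q, M')`, by FIN-DOWN. -/
theorem q4For_down (hFD : FinDownStatement)
    (p q r M' : ℕ) [NeZero M'] [NeZero q] [NeZero r] [NeZero (q * M')] [NeZero (r * M')]
    [NeZero (q * (r * M'))] (hp : p.Prime) (hq : q.Prime) (hqp : q ≠ p) (hr : r.Prime)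
    (hrq : r ≠ q) (hqM : ¬ q ∣ M') (hrM : ¬ r ∣ M') (hcop : Nat.Coprime (r + 1) p)
    (A : ValuationSubring Kbar) (hA : A.LiesOverPrime q)
    (h4 : Q4For p q (r * M') A (finPartQ p q (r * M') A)) :
    Q4For p q M' A (finPartQ p q M' A) :=
  Fermat.Agent.S59.H158.Neat.q4For_of_neatPull
    (isNeatPull q r M' p hq hqM (not_dvd_mul_of_ne hq hr hrq hqM) hr hrq hrM hcop)
    (fun x hpx hx => hFD p q r M' hp hq hqp hr hrq hqM hrM hcop A hA x hpx hx) h4

/-- **The three targets from (Q4)** for `finPartQ`: any primes `p ≠ q`, ANY level. -/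
theorem targetsAt_of_q4 (p q M' : ℕ) [NeZero M'] [NeZero q] [NeZero (q * M')] (hp : p.Prime)
    (hq : q.Prime) (hqp : q ≠ p) (hqM : ¬ q ∣ M')
    (h4 : ∀ A : ValuationSubring Kbar, A.LiesOverPrime q →
      Q4For p q M' A (finPartQ p q M' A)) : TargetsAt p q M' := by
  intro A hA
  have hqm : ¬ q ∣ p := fun hd => hqp ((Nat.prime_dvd_prime_iff_eq hq hp).1 hd)
  exact ⟨finPartQ p q M' A, splitPartQ p q M' A,
    Fermat.Agent.Ribet.H818.q2All p q M' hq hqM hp.pos hqm A hA,
    Fermat.Agent.Ribet.H924.q3For_all p q M' hp hq hqp hqM A hA, h4 A hA⟩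

/-- **The three targets at `(q, M')` from FIN-DOWN and (Q4) at the auxiliary level
`(q, r M')`.** -/
theorem targetsAt_of_finDown (hFD : FinDownStatement)
    (p q r M' : ℕ) [NeZero M'] [NeZero q] [NeZero r] [NeZero (q * M')] [NeZero (r * M')]
    [NeZero (q * (r * M'))] (hp : p.Prime) (hq : q.Prime) (hqp : q ≠ p) (hr : r.Prime)
    (hrq : r ≠ q) (hqM : ¬ q ∣ M') (hrM : ¬ r ∣ M') (hcop : Nat.Coprime (r + 1) p)
    (h4 : ∀ A : ValuationSubring Kbar, A.LiesOverPrime q →
      Q4For p q (r * M') A (finPartQ p q (r * M') A)) : TargetsAt p q M' :=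
  targetsAt_of_q4 p q M' hp hq hqp hqM
    (fun A hA => q4For_down hFD p q r M' hp hq hqp hr hrq hqM hrM hcop A hA (h4 A hA))

/-! ## The cells at `p = 5` -/

/-- **T5-DESC3** (`p = 5`, `q = 3`, `M'` odd) from FIN-DOWN: auxiliary prime `r = 2`. -/
theorem t5Desc3_of_finDown (hFD : FinDownStatement) : T5Desc3Statement := by
  intro M' _ _ h3M h2M
  have hM0 : M' ≠ 0 := NeZero.ne M'
  haveI : NeZero (2 * M') := ⟨Nat.mul_ne_zero (by norm_num) hM0⟩
  haveI : NeZero (3 * (2 * M')) := ⟨Nat.mul_ne_zero (by norm_num) (NeZero.ne (2 * M'))⟩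
  have hq : Nat.Prime 3 := Nat.prime_three
  have hr : Nat.Prime 2 := Nat.prime_two
  have hqN : ¬ 3 ∣ 2 * M' := not_dvd_mul_of_ne hq hr (by norm_num) h3M
  refine targetsAt_of_finDown hFD 5 3 2 M' (by norm_num) hq (by norm_num) hr (by norm_num) h3M
    h2M (by norm_num) ?_
  intro A hA
  exact q4For_of_hasAux 5 3 (2 * M') (by norm_num) (by norm_num) hq (by norm_num) hqN
    ⟨fun _ => Dvd.intro M' rfl, fun h => absurd h (by norm_num)⟩ A hA

/-- **T5-DESC2** (`p = 5`, `q = 2`, `3 ∤ M'`) from FIN-DOWN: auxiliary prime `r = 3`. -/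
theorem t5Desc2_of_finDown (hFD : FinDownStatement) : T5Desc2Statement := by
  intro M' _ _ h2M h3M
  have hM0 : M' ≠ 0 := NeZero.ne M'
  haveI : NeZero (3 * M') := ⟨Nat.mul_ne_zero (by norm_num) hM0⟩
  haveI : NeZero (2 * (3 * M')) := ⟨Nat.mul_ne_zero (by norm_num) (NeZero.ne (3 * M'))⟩
  have hq : Nat.Prime 2 := Nat.prime_two
  have hr : Nat.Prime 3 := Nat.prime_three
  have hqN : ¬ 2 ∣ 3 * M' := not_dvd_mul_of_ne hq hr (by norm_num) h2M
  refine targetsAt_of_finDown hFD 5 2 3 M' (by norm_num) hq (by norm_num) hr (by norm_num) h2M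
    h3M (by norm_num) ?_
  intro A hA
  exact q4For_of_hasAux 5 2 (3 * M') (by norm_num) (by norm_num) hq (by norm_num) hqN
    ⟨fun h => absurd h (by norm_num), fun _ => Dvd.intro M' rfl⟩ A hA

/-! ## The cells at `p = 3` -/

/-- **T3-NEAT** from (Q4) at the neat levels with the auxiliary prime. -/
theorem t3Neat_of_q4 (h4 : Q4NeatThreeStatement) : T3NeatStatement := by
  intro q M' _ _ _ hq hq3 hqM h2 hn
  refine targetsAt_of_q4 3 q M' Nat.prime_three hq hq3 hqM ?_
  intro A hA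
  exact h4 q M' hq hq3 hqM ⟨fun h => absurd h hq3, h2⟩ hn A hA

/-- **T3-DESC2-NEAT** (`p = 3`, `q = 2`, `3 ∤ M'`, `M'` neat at `2`) from FIN-DOWN and (Q4) at the
neat levels with the auxiliary prime: auxiliary prime `r = 3`, degree `4`. -/
theorem t3Desc2Neat_of_finDown (hFD : FinDownStatement) (h4 : Q4NeatThreeStatement) :
    Fermat.Agent.S59.LOQ.H849.T3Desc2NeatStatement := by
  intro M' _ _ h2M h3M hn
  have hM0 : M' ≠ 0 := NeZero.ne M'
  haveI : NeZero (3 * M') := ⟨Nat.mul_ne_zero (by norm_num) hM0⟩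
  haveI : NeZero (2 * (3 * M')) := ⟨Nat.mul_ne_zero (by norm_num) (NeZero.ne (3 * M'))⟩
  have hq : Nat.Prime 2 := Nat.prime_two
  have hr : Nat.Prime 3 := Nat.prime_three
  have hqN : ¬ 2 ∣ 3 * M' := not_dvd_mul_of_ne hq hr (by norm_num) h2M
  have hn' : Neat3 2 (3 * M') := by
    rcases hn with h | ⟨r, hr', hr2, hrq, hrM⟩
    · exact Or.inl h
    · exact Or.inr ⟨r, hr', hr2, hrq, Dvd.dvd.mul_left hrM 3⟩
  refine targetsAt_of_finDown hFD 3 2 3 M' hr hq (by norm_num) hr (by norm_num) h2M h3M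
    (by norm_num) ?_
  intro A hA
  exact h4 2 (3 * M') hq (by norm_num) hqN
    ⟨fun h => absurd h (by norm_num), fun _ => Dvd.intro M' rfl⟩ hn' A hA

end Fermat.Agent.S59.LOQ.H213

end
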