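import Fermat.Agent.S59.LOQ.H213.Closed
import Fermat.Agent.S59.LOQ.H213.Desc

/-!
# Row S59, cell (B1) = LO-Q from its TWO open leaves  (sub-architect helper213)

    mazurW35_of_finDown_q4 : FinDownStatement → Q4NeatThreeStatement → LOW.MazurW35Statement

* `FinDownStatement` (FIN-DOWN along `H672.neatPullR`, degree `r + 1` prime to `p`);
* `Q4NeatThreeStatement` ((Q4) TAME for `finPartQ` at `p = 3`, neat levels with the auxiliary
  prime: the unit of exponent prime to `3`).

Everything else of LO-Q is plugged (see `Closed.lean`, `Desc.lean`).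
-/

set_option autoImplicit false

namespace Fermat.Agent.S59.LOQ.H213

/-- **LO-Q from FIN-DOWN and Q4-NEAT-3.** -/
theorem mazurW35_of_finDown_q4 (hFD : FinDownStatement) (h4 : Q4NeatThreeStatement) :
    Fermat.Agent.S59.Arch.LOW.MazurW35Statement :=
  mazurW35_of_open (t5Desc3_of_finDown hFD) (t5Desc2_of_finDown hFD) (t3Neat_of_q4 h4)
    (t3Desc2Neat_of_finDown hFD h4)

end Fermat.Agent.S59.LOQ.H213
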