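import Fermat.Agent.S59.LOQ.H213.Cells
import Fermat.Agent.Ribet.H823.EmbedWFinal
import Fermat.Agent.Ribet.H883.WallInputs
import Fermat.Agent.Ribet.H404.R3S
import Fermat.Agent.Ribet.H943.Final
import Fermat.Agent.Ribet.H584.Places

/-!
# Row S59, sub-row LO-Q: the row inputs plugged (helper213)

`mazurW35_of_targets35 : TargetsW35Statement → LOW.MazurW35Statement` — every other input of
`mazurW35_of_targets` is on main, unconditional.
-/

set_option autoImplicit false

namespace Fermat.Agent.S59.LOQ.H213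

open Fermat.Agent.Ribet Fermat.Agent.Ribet.Spec

/-- (DETF-W), from `H823.h823_detFrobW`. -/
theorem detFrobW : DetFrobWStatement :=
  fun W p hΔ hp hirr q hq hqp A hA φ hφ =>
    Fermat.Agent.Ribet.H823.h823_detFrobW W p hΔ hp hirr q hq hqp A hA φ hφ

/-- (DIM-W), from `H823.h823_finrankW`. -/
theorem torsionRankW : TorsionRankWStatement :=
  fun _ p hΔ hp =>
    haveI : Fact p.Prime := ⟨hp⟩
    Fermat.Agent.Ribet.H823.h823_finrankW hΔ p

/-- **LO-Q from its ONE leaf.** -/
theorem mazurW35_of_targets35 (hT : TargetsW35Statement) :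
    Fermat.Agent.S59.Arch.LOW.MazurW35Statement :=
  mazurW35_of_targets Fermat.Agent.Ribet.H823.embedW Fermat.Agent.Ribet.H883.nonEisW
    Fermat.Agent.Ribet.H404.eigenformOfOccursAway Fermat.Agent.Ribet.H943.Final.almostAllToWitnessW
    Fermat.Agent.Ribet.H584.places detFrobW torsionRankW hT

/-- **LO-Q from its six cells.** -/
theorem mazurW35_of_cells35 (h5g : T5GoodStatement) (h5t : T5TwoStatement)
    (h53 : T5Desc3Statement) (h52 : T5Desc2Statement) (h3n : T3NeatStatement)
    (h3r : T3RestStatement) : Fermat.Agent.S59.Arch.LOW.MazurW35Statement :=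
  mazurW35_of_targets35 (targetsW35_of_cells h5g h5t h53 h52 h3n h3r)

end Fermat.Agent.S59.LOQ.H213
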