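import Fermat.Agent.Ribet.H158.WallQSpec
import Fermat.Agent.Ribet.H944.WallSpec
import Fermat.Agent.Ribet.Spec3
import Fermat.Agent.S59.Arch.LOW

/-!
# Row S59, cell LO, sub-row LO-Q (Mazur's principle in W-form at `p ∈ {3, 5}`)
  — frozen target, W-form core and glue (sub-architect helper213)

Target of the sub-row: `S59.Arch.LOW.MazurW35Statement` (frozen by helper239).

## The ONE geometric leaf
`TargetsW35Statement`: the three targets `Q2For / Q3For / Q4For` of the wall at `q`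
(`Ribet/H158/WallQSpec.lean`, VERBATIM vocabulary) at `p ∈ {3, 5}`, for EVERY prime `q ≠ p`
(`q = 2` included) and EVERY level `M'` prime to `q` (`p ∣ M'` allowed, no good-level hypothesis).
The targets only speak about `J₀(q M')`; nothing about curves.

## Proved here (no new mathematics: W-form copy of `H158.WallQ.lowered_of_targetsQ` and of
`H723.lowered_of_targetsQ_plus`)
* `involution_pm_oneW`        : Schur for an involution of an irreducible `W[p]`;
* `lowered_of_targetsQ_W`     : the core of the wall at `q`, W-form, sharp exclusion;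
* `mazurW35_of_targets`       : BLR-W + NE-W + R3S + R3'-W + PL + DETF-W + DIM-W + targets
                                ⇒ `MazurW35Statement`.
-/

set_option autoImplicit false
set_option linter.style.haveILetI false

open WeierstrassCurve WeierstrassCurve.Affine WeierstrassCurve.Affine.Point
open CuspForm ModularFormClass UpperHalfPlane ModularCurve

namespace Fermat.Agent.S59.LOQ.H213

open Fermat.Agent.Ribet Fermat.Agent.Ribet.Spec Fermat.Agent.Ribet.H944.Wall
open Fermat.Agent.Ribet.H801 Fermat.Agent.Ribet.H158.WallQ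
open Fermat.Agent.S59.Arch.LOW

/-! ## The leaf -/

/-- **LO-Q, the geometric leaf**: the three targets of the wall at `q` for `p ∈ {3, 5}`, every
prime `q ≠ p` and every level `M'` prime to `q`. -/
def TargetsW35Statement : Prop :=
  ∀ (p q M' : ℕ) [NeZero M'] [NeZero q] [NeZero (q * M')], p.Prime → (p = 3 ∨ p = 5) →
    q.Prime → q ≠ p → ¬ q ∣ M' →
    ∀ A : ValuationSubring (AlgebraicClosure ℚ), A.LiesOverPrime q →
      ∃ 𝓕 𝒮 : AddSubgroup (JZero (q * M')),
        Q2For p q M' A 𝒮 ∧ Q3For p q M' 𝓕 𝒮 ∧ Q4For p q M' A 𝓕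

/-- (DETF-W) `det ρ̄(Frob_q) = q` on an irreducible `W[p]` (on main: `H823.h823_detFrobW`). -/
def DetFrobWStatement : Prop :=
  ∀ (W : WeierstrassCurve ℤ) (p : ℕ), W.Δ ≠ 0 → p.Prime → W.ModRepIsIrreducible p →
    ∀ q : ℕ, q.Prime → q ≠ p →
    ∀ A : ValuationSubring (AlgebraicClosure ℚ), A.LiesOverPrime q →
    ∀ φ : GQ, A.IsFrobeniusAt φ q →
      LinearMap.det (galoisRepModuleEnd (S := ℚ) (K := AlgebraicClosure ℚ)
        (W.map (Int.castRingHom ℚ)) p φ) = (q : ZMod p)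

/-- (DIM-W) `W[p]` has rank two (on main: `H823.h823_finrankW`). -/
def TorsionRankWStatement : Prop :=
  ∀ (W : WeierstrassCurve ℤ) (p : ℕ), W.Δ ≠ 0 → p.Prime →
    Module.finrank (ZMod p) (WTorsion W p) = 2

/-! ## W-form core -/

theorem wTorsion_nsmul (W : WeierstrassCurve ℤ) (p : ℕ) (x : WTorsion W p) : p • x = 0 := by
  apply Subtype.ext
  have h := x.2
  rw [Submodule.mem_torsionBy_iff] at h
  rw [Submodule.coe_smul_of_tower, ZeroMemClass.coe_zero, ← h, Nat.cast_smul_eq_nsmul]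

/-- Schur-type lemma: a linear involution of an irreducible `W[p]` commuting with Galois is
`± 1`. -/
theorem involution_pm_oneW (W : WeierstrassCurve ℤ) (p : ℕ)
    (hirr : W.ModRepIsIrreducible p)
    (U : WTorsion W p →ₗ[ZMod p] WTorsion W p)
    (hUG : ∀ (σ : GQ) (x : WTorsion W p), U (σ • x) = σ • U x)
    (hUU : ∀ x, U (U x) = x) : (∀ x, U x = x) ∨ (∀ x, U x = -x) := by
  let Vp : Submodule (ZMod p) (WTorsion W p) := LinearMap.ker (U - LinearMap.id)
  have hVp : ∀ x, x ∈ Vp ↔ U x = x := fun x => by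
    simp only [Vp, LinearMap.mem_ker, LinearMap.sub_apply, LinearMap.id_apply, sub_eq_zero]
  have hsp : IsGaloisStable ℚ Vp := fun σ x hx => by
    rw [hVp] at hx ⊢
    rw [hUG, hx]
  rcases hirr.2 Vp hsp with hp | hp
  · right
    intro x
    have h1 : x + U x ∈ Vp := by
      rw [hVp, map_add, hUU, add_comm]
    rw [hp, Submodule.mem_bot] at h1
    exact eq_neg_of_add_eq_zero_right h1
  · left
    intro x
    exact (hVp x).1 (hp ▸ Submodule.mem_top)

section Core

variable {p q M' : ℕ} [NeZero M'] [NeZero q] [NeZero (q * M')]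

/-- **Core of the wall at `q`, W-form, sharp exclusion**: from the three targets at a place `A`
with a Frobenius `φ` such that `q ≢ 1 mod p` or `φ` is not a scalar on `W[p]`. -/
theorem lowered_of_targetsQ_W (W : WeierstrassCurve ℤ) (hp : p.Prime) (hq : q.Prime)
    (hqp : q ≠ p) (hirr : W.ModRepIsIrreducible p)
    (hdim : Module.finrank (ZMod p) (WTorsion W p) = 2)
    {A : ValuationSubring (AlgebraicClosure ℚ)} {φ : GQ} (hφ : A.IsFrobeniusAt φ q)
    (hdet : LinearMap.det (galoisRepModuleEnd (S := ℚ) (K := AlgebraicClosure ℚ)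
      (W.map (Int.castRingHom ℚ)) p φ) = (q : ZMod p))
    (hfixE : ∀ σ ∈ A.inertiaSubgroupIn ℚ, ∀ x : WTorsion W p, σ • x = x)
    (hq1 : ¬ p ∣ q - 1 ∨ ∀ c : ℤ, ∃ x : WTorsion W p, φ • x ≠ c • x)
    {𝓕 𝒮 : AddSubgroup (JZero (q * M'))}
    (h2 : Q2For p q M' A 𝒮) (h3 : Q3For p q M' 𝓕 𝒮) (h4 : Q4For p q M' A 𝓕)
    {S : Finset ℕ} (hNE : NonEisAway p (fun ℓ => W.apOfModel ℓ))
    (hemb : WEmbedsIn W p (q * M') S) : Lowered M' p S (fun ℓ => W.apOfModel ℓ) := by
  haveI : Fact p.Prime := ⟨hp⟩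
  obtain ⟨ι, hinj, hgal, hT⟩ := hemb
  have hp_tors : ∀ x, p • ι x = 0 := fun x => by
    rw [← map_nsmul, wTorsion_nsmul, _root_.map_zero]
  have hfix : ∀ σ ∈ A.inertiaSubgroupIn ℚ, ∀ x, σ • ι x = ι x := fun σ hσ x => by
    rw [← hgal]
    exact congrArg ι (hfixE σ hσ x)
  have hdeg := isDegPair_alphaL_betaL q M' hq
  -- (W0) not new: the eigensystem occurs at level `M'` through `α_*` or `β_*`
  by_cases h : ∃ x, alphaL q M' (ι x) ≠ 0 ∨ betaL q M' (ι x) ≠ 0
  · refine ⟨S ∪ {q}, Finset.subset_union_left, Or.inl ?_⟩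
    obtain ⟨x, hx | hx⟩ := h
    · refine ⟨alphaL q M' (ι x), hx, ?_, fun ℓ hℓ => ?_⟩
      · rw [← map_nsmul, hp_tors, _root_.map_zero]
      · rw [Finset.mem_union, not_or] at hℓ
        rw [← hdeg.hecke_left ℓ hℓ.2, hT ℓ hℓ.1, map_zsmul]
    · refine ⟨betaL q M' (ι x), hx, ?_, fun ℓ hℓ => ?_⟩
      · rw [← map_nsmul, hp_tors, _root_.map_zero]
      · rw [Finset.mem_union, not_or] at hℓ
        rw [← hdeg.hecke_right ℓ hℓ.2, hT ℓ hℓ.1, map_zsmul]
  have hnew : ∀ x, IsNewTorsQ p q M' (ι x) := by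
    intro x
    refine ⟨hp_tors x, ?_, ?_⟩
    · by_contra hx
      exact h ⟨x, Or.inl hx⟩
    · by_contra hx
      exact h ⟨x, Or.inr hx⟩
  have heig : ∀ x, EigenAt (q * M') S (fun ℓ => W.apOfModel ℓ) (ι x) :=
    fun x ℓ hℓ => hT ℓ hℓ x
  -- (Q4) the image lies in the finite part
  have hF : ∀ x, ι x ∈ 𝓕 := fun x =>
    h4 S _ hNE (ι x) (hnew x) (heig x) (fun σ hσ => hfix σ hσ x)
  -- (Q3) if the image is not in the split part we are done
  by_cases hS : ∃ x, ι x ∉ 𝒮
  · obtain ⟨x, hx⟩ := hS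
    exact h3 S _ (ι x) (hF x) hx (hnew x) (heig x)
  -- (Q2) otherwise Frobenius is the scalar `± q` on `W[p]`: contradiction
  exfalso
  have hι𝒮 : ∀ x, ι x ∈ 𝒮 := by
    intro x
    by_contra hx
    exact hS ⟨x, hx⟩
  obtain ⟨u, huG, huu, hφu⟩ := h2
  have hcopq : IsCoprime (q : ℤ) (p : ℤ) := by
    rw [isCoprime_comm]
    refine (Nat.prime_iff_prime_int.mp hp).coprime_iff_not_dvd.2 ?_
    intro h'
    have h'' : p ∣ q := by exact_mod_cast h'
    exact hqp ((Nat.prime_dvd_prime_iff_eq hp hq).1 h'').symm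
  obtain ⟨d, e, hde⟩ := hcopq
  have hu : ∀ x, u (ι x) = ι (d • (φ • x)) := by
    intro x
    have h1 : φ • ι x = q • u (ι x) := hφu φ hφ (ι x) (hι𝒮 x) (hnew x)
    have h2' : p • u (ι x) = 0 := by rw [← map_nsmul, hp_tors, _root_.map_zero]
    calc u (ι x) = d • (q • u (ι x)) := (bezout_zsmul_nsmul _ p q d e hde h2').symm
      _ = d • (φ • ι x) := by rw [h1]
      _ = ι (d • (φ • x)) := by rw [map_zsmul, hgal]
  -- the involution on `W[p]`
  let U : WTorsion W p →ₗ[ZMod p] WTorsion W p :=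
    (d : ZMod p) • galoisRepModuleEnd (S := ℚ) (K := AlgebraicClosure ℚ)
      (W.map (Int.castRingHom ℚ)) p φ
  have hUdef : ∀ x, U x = d • (φ • x) := fun x => by
    show (d : ZMod p) • (φ • x) = d • (φ • x)
    exact Int.cast_smul_eq_zsmul (ZMod p) d (φ • x)
  have hιU : ∀ x, ι (U x) = u (ι x) := fun x => by rw [hUdef, hu]
  have hUG : ∀ (σ : GQ) (x : WTorsion W p), U (σ • x) = σ • U x := fun σ x => by
    apply hinj
    rw [hιU, hgal, huG, hgal, hιU]
  have hUU : ∀ x, U (U x) = x := fun x => by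
    apply hinj
    rw [hιU, hιU, huu _ (hι𝒮 x) (hnew x)]
  have hφU : ∀ x : WTorsion W p, φ • x = (q : ℤ) • U x := fun x => by
    rw [hUdef, natCast_zsmul]
    have h3' : d • (q • (φ • x)) = φ • x :=
      bezout_zsmul_nsmul _ p q d e hde (wTorsion_nsmul W p _)
    rw [smul_comm] at h3'
    exact h3'.symm
  -- `φ` is the scalar `ε q`, `ε = ± 1`
  have hscal : ∃ ε : ℤ, ε ^ 2 = 1 ∧ ∀ x : WTorsion W p, φ • x = (ε * q) • x := by
    rcases involution_pm_oneW W p hirr U hUG hUU with hU | hU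
    · exact ⟨1, by norm_num, fun x => by rw [hφU, hU, one_mul]⟩
    · refine ⟨-1, by norm_num, fun x => ?_⟩
      rw [hφU, hU, smul_neg, neg_one_mul]
      exact (_root_.neg_smul _ _).symm
  obtain ⟨ε, hε, hφε⟩ := hscal
  rcases hq1 with hq1 | hns
  · -- `det φ = (ε q)² = q²`, but `det φ = q`: so `p ∣ q - 1`
    have e : galoisRepModuleEnd (S := ℚ) (K := AlgebraicClosure ℚ)
        (W.map (Int.castRingHom ℚ)) p φ
        = ((ε * q : ℤ) : ZMod p) • (LinearMap.id : WTorsion W p →ₗ[ZMod p] WTorsion W p) := by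
      ext x
      rw [galoisRepModuleEnd_apply, hφε]
      simp only [LinearMap.smul_apply, LinearMap.id_coe, id_eq]
      rw [Int.cast_smul_eq_zsmul]
    have hε' : ((ε : ℤ) : ZMod p) ^ 2 = 1 := by
      have := congrArg (Int.cast : ℤ → ZMod p) hε
      simpa using this
    have hd : LinearMap.det (galoisRepModuleEnd (S := ℚ) (K := AlgebraicClosure ℚ)
        (W.map (Int.castRingHom ℚ)) p φ) = (q : ZMod p) ^ 2 := by
      rw [e, LinearMap.det_smul, hdim, LinearMap.det_id, mul_one]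
      push_cast
      rw [mul_pow, hε', one_mul]
    have hdet' : (q : ZMod p) = (q : ZMod p) ^ 2 := hdet.symm.trans hd
    have hq0 : (q : ZMod p) ≠ 0 := by
      intro h'
      rw [ZMod.natCast_eq_zero_iff] at h'
      exact hqp ((Nat.prime_dvd_prime_iff_eq hp hq).1 h').symm
    have hq1' : (q : ZMod p) = 1 := by
      have : (q : ZMod p) * ((q : ZMod p) - 1) = 0 := by
        rw [mul_sub, mul_one, ← pow_two, ← hdet', sub_self]
      rcases mul_eq_zero.1 this with h' | h'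
      · exact absurd h' hq0
      · exact sub_eq_zero.1 h'
    apply hq1
    have : ((q - 1 : ℕ) : ZMod p) = 0 := by
      rw [Nat.cast_sub hq.one_le, hq1']
      simp
    exact (ZMod.natCast_eq_zero_iff _ _).1 this
  · obtain ⟨x, hx⟩ := hns (ε * q)
    exact hx (hφε x)

end Core

/-! ## The dictionary with `residualGaloisRepOf` -/

section Dict

variable {p : ℕ} [Fact p.Prime] (W : WeierstrassCurve ℤ)
    (hcard : Nat.card (Submodule.torsionBy ℤ
      ((W.map (Int.castRingHom ℚ))⁄(AlgebraicClosure ℚ)).Point p) = p ^ 2)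
    (hker : GaloisFactorsThroughFiniteLevel
      (WeierstrassCurve.Affine.Point.galoisRepModuleEnd (K := AlgebraicClosure ℚ) ℚ
        (W.map (Int.castRingHom ℚ)) p))

/-- Unramified at `q` in the sense of the Prelude ⇒ inertia fixes `W[p]` pointwise. -/
theorem fix_of_isUnramifiedAt {q : ℕ}
    (hunr : ((W.map (Int.castRingHom ℚ)).residualGaloisRepOf p hcard hker).IsUnramifiedAt q)
    (A : ValuationSubring (AlgebraicClosure ℚ)) (hA : A.LiesOverPrime q) :
    ∀ σ ∈ A.inertiaSubgroupIn ℚ, ∀ x : WTorsion W p, σ • x = x := by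
  intro σ hσ x
  have h := hunr A hA σ hσ
  have h' := LinearMap.congr_fun h x
  exact h'

/-- Not a pivot ⇒ `q ≢ 1 mod p`, or some Frobenius at `q` is not an integer scalar on `W[p]`. -/
theorem exclusion_of_not_isPivotAt {q : ℕ}
    (hnp : ¬ IsPivotAt p ((W.map (Int.castRingHom ℚ)).residualGaloisRepOf p hcard hker) q) :
    ¬ p ∣ q - 1 ∨ ∃ (A : ValuationSubring (AlgebraicClosure ℚ)) (φ : GQ),
      A.LiesOverPrime q ∧ A.IsFrobeniusAt φ q ∧ ∀ c : ℤ, ∃ x : WTorsion W p, φ • x ≠ c • x := by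
  by_cases h1 : p ∣ q - 1
  · right
    by_contra hcon
    apply hnp
    refine ⟨h1, ?_⟩
    intro P hP φ hφ
    by_contra hsc
    apply hcon
    refine ⟨P, φ, hP, hφ, fun c => ?_⟩
    by_contra hx
    push Not at hx
    apply hsc
    refine ⟨(c : ZMod p), ?_⟩
    change galoisRepModuleEnd (S := ℚ) (K := AlgebraicClosure ℚ)
        (W.map (Int.castRingHom ℚ)) p φ
      = (c : ZMod p) • (1 : Module.End (ZMod p) (WTorsion W p))
    ext x
    have := hx x
    rw [galoisRepModuleEnd_apply, LinearMap.smul_apply, Module.End.one_apply, this,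
      Int.cast_smul_eq_zsmul]
  · exact Or.inl h1

end Dict

/-! ## The glue -/

/-- **LO-Q from its leaf**: BLR-W + NE-W + R3S + R3'-W + PL + DETF-W + DIM-W + the three targets
at `p ∈ {3, 5}` ⇒ `MazurW35Statement`. -/
theorem mazurW35_of_targets (hE : EmbedWStatement) (hNE : NonEisWStatement)
    (hR3 : EigenformOfOccursAwayStatement) (hR3' : AlmostAllToWitnessWStatement)
    (hPl : PlacesStatement) (hDet : DetFrobWStatement) (hDim : TorsionRankWStatement)
    (hT : TargetsW35Statement) : MazurW35Statement := by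
  intro p _ hp35 W hΔ hW hirr hcard hker M q hM hq hqp hqM hunr hnp hres
  have hp : p.Prime := Fact.out
  have hp2 : p ≠ 2 := by rcases hp35 with h | h <;> omega
  obtain ⟨M', rfl⟩ := hqM
  have hM0 : q * M' ≠ 0 := hM.ne_zero
  have hM'pos : 0 < M' := by
    rcases Nat.eq_zero_or_pos M' with h0 | h0
    · subst h0; simp at hM0
    · exact h0
  rw [Nat.mul_div_cancel_left M' hq.pos]
  have hqM' : ¬ q ∣ M' := by
    rintro ⟨k, rfl⟩
    have h2 : q * q ∣ q * (q * k) := ⟨k, by ring⟩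
    exact hq.not_isUnit (hM q h2)
  haveI : NeZero M' := ⟨hM'pos.ne'⟩
  haveI : NeZero q := ⟨hq.ne_zero⟩
  haveI : NeZero (q * M') := ⟨hM0⟩
  obtain ⟨f, 𝔪, hwit⟩ := hres
  obtain ⟨S, hemb⟩ := hE W p (q * M') hΔ hp hp2 hirr f 𝔪 hwit
  have hNE' : NonEisAway p (fun ℓ => W.apOfModel ℓ) := hNE W p hΔ hp hp2 hirr
  have hlow : Lowered M' p S (fun ℓ => W.apOfModel ℓ) := by
    rcases exclusion_of_not_isPivotAt W hcard hker hnp with hq1 | ⟨A, φ, hA, hφ, hns⟩
    · obtain ⟨A, hA, φ, hφ⟩ := hPl q hq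
      obtain ⟨𝓕, 𝒮, h2, h3, h4⟩ := hT p q M' hp hp35 hq hqp hqM' A hA
      exact lowered_of_targetsQ_W W hp hq hqp hirr (hDim W p hΔ hp) hφ
        (hDet W p hΔ hp hirr q hq hqp A hA φ hφ) (fix_of_isUnramifiedAt W hcard hker hunr A hA)
        (Or.inl hq1) h2 h3 h4 hNE' hemb
    · obtain ⟨𝓕, 𝒮, h2, h3, h4⟩ := hT p q M' hp hp35 hq hqp hqM' A hA
      exact lowered_of_targetsQ_W W hp hq hqp hirr (hDim W p hΔ hp) hφ
        (hDet W p hΔ hp hirr q hq hqp A hA φ hφ) (fix_of_isUnramifiedAt W hcard hker hunr A hA)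
        (Or.inr hns) h2 h3 h4 hNE' hemb
  obtain ⟨S', g, 𝔪', hg, hmax, hpm, hc⟩ := eigenAway_of_lowered hR3 hp hlow
  exact ⟨g, 𝔪', hR3' W p M' hΔ hp hp2 hM'pos hirr g 𝔪' _ hg hmax hpm hc⟩

end Fermat.Agent.S59.LOQ.H213
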